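import Mathlib

/-! # S48 / W2x (Mathlib only; copy of ES/An/Eis/Gc.lean in weight 3): the series `G_c τ = ∑' v, c v * (v 0 * τ + v 1)^(-3)` for bounded `c`. -/

set_option autoImplicit false

open UpperHalfPlane EisensteinSeries Matrix Filter Topology
open scoped MatrixGroups Manifold ModularForm

namespace Fermat.Agent.S48.W2x

noncomputable section

/-- The twisted series of weight `3`. -/
def G3 (c : (Fin 2 → ℤ) → ℂ) (z : ℍ) : ℂ := ∑' v : Fin 2 → ℤ, c v * eisSummand 3 v z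

lemma vecMul_mul_inv (γ : SL(2, ℤ)) (v : Fin 2 → ℤ) :
    (v ᵥ* (γ : Matrix (Fin 2) (Fin 2) ℤ)) ᵥ* ((γ⁻¹ : SL(2, ℤ)) : Matrix (Fin 2) (Fin 2) ℤ) = v := by
  rw [vecMul_vecMul, ← Matrix.SpecialLinearGroup.coe_mul, mul_inv_cancel,
    Matrix.SpecialLinearGroup.coe_one, vecMul_one]

lemma vecMul_inv_mul (γ : SL(2, ℤ)) (v : Fin 2 → ℤ) :
    (v ᵥ* ((γ⁻¹ : SL(2, ℤ)) : Matrix (Fin 2) (Fin 2) ℤ)) ᵥ* (γ : Matrix (Fin 2) (Fin 2) ℤ) = v := by
  rw [vecMul_vecMul, ← Matrix.SpecialLinearGroup.coe_mul, inv_mul_cancel,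
    Matrix.SpecialLinearGroup.coe_one, vecMul_one]

/-- right multiplication by `γ` on row vectors. -/
def vecEquiv (γ : SL(2, ℤ)) : (Fin 2 → ℤ) ≃ (Fin 2 → ℤ) where
  toFun v := v ᵥ* γ
  invFun v := v ᵥ* ↑(γ⁻¹)
  left_inv v := vecMul_mul_inv γ v
  right_inv v := vecMul_inv_mul γ v

variable {c : (Fin 2 → ℤ) → ℂ}

lemma norm_term_le (hc : ∀ v, ‖c v‖ ≤ 1) (v : Fin 2 → ℤ) (z : ℍ) :
    ‖c v * eisSummand 3 v z‖ ≤ ‖eisSummand 3 v z‖ := by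
  rw [norm_mul]
  exact mul_le_of_le_one_left (norm_nonneg _) (hc v)

lemma summable_term (hc : ∀ v, ‖c v‖ ≤ 1) (z : ℍ) :
    Summable fun v : Fin 2 → ℤ => c v * eisSummand 3 v z :=
  Summable.of_norm_bounded (summable_norm_eisSummand (k := 3) (by norm_num) z)
    (fun v => norm_term_le hc v z)

lemma norm_eisSummand_le {A B : ℝ} (hB : 0 < B) {z : ℍ} (hz : z ∈ verticalStrip A B)
    (v : Fin 2 → ℤ) :
    ‖eisSummand 3 v z‖ ≤ r ⟨⟨A, B⟩, hB⟩ ^ (-(3 : ℝ)) * ‖v‖ ^ (-(3 : ℝ)) := by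
  have h := summand_bound_of_mem_verticalStrip (k := 3) (by norm_num) v hB hz
  simp only [eisSummand, norm_zpow]
  have e : ‖(v 0 : ℂ) * (z : ℂ) + (v 1 : ℂ)‖ ^ (-(3 : ℤ)) =
      ‖(v 0 : ℂ) * (z : ℂ) + (v 1 : ℂ)‖ ^ (-(3 : ℝ)) := by
    rw [← Real.rpow_intCast]; norm_num
  rw [e]
  exact h

lemma summable_bound {A B : ℝ} (hB : 0 < B) :
    Summable fun v : Fin 2 → ℤ => r ⟨⟨A, B⟩, hB⟩ ^ (-(3 : ℝ)) * ‖v‖ ^ (-(3 : ℝ)) :=
  (summable_one_div_norm_rpow (k := 3) (by norm_num)).mul_left _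

/-- the majorant. -/
def Maj3 (z : ℍ) : ℝ := ∑' v : Fin 2 → ℤ, ‖eisSummand 3 v z‖

lemma norm_G3_le (hc : ∀ v, ‖c v‖ ≤ 1) (z : ℍ) : ‖G3 c z‖ ≤ Maj3 z := by
  have h1 : Summable fun v : Fin 2 → ℤ => ‖c v * eisSummand 3 v z‖ :=
    Summable.of_nonneg_of_le (fun _ => norm_nonneg _) (fun v => norm_term_le hc v z)
      (summable_norm_eisSummand (k := 3) (by norm_num) z)
  exact (norm_tsum_le_tsum_norm h1).trans
    (h1.tsum_le_tsum (fun v => norm_term_le hc v z)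
      (summable_norm_eisSummand (k := 3) (by norm_num) z))

lemma Maj3_smul (γ : SL(2, ℤ)) (z : ℍ) : Maj3 (γ • z) = ‖denom γ z‖ ^ (3 : ℤ) * Maj3 z := by
  unfold Maj3
  simp_rw [eisSummand_SL2_apply, norm_mul, norm_zpow, tsum_mul_left]
  congr 1
  exact (vecEquiv γ).tsum_eq (fun v => ‖eisSummand 3 v z‖)

lemma Maj3_T_zpow (n : ℤ) (z : ℍ) : Maj3 (ModularGroup.T ^ n • z) = Maj3 z := by
  rw [Maj3_smul]
  have : denom (ModularGroup.T ^ n : SL(2, ℤ)) z = 1 := by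
    rw [ModularGroup.denom_apply, ModularGroup.coe_T_zpow]
    simp
  rw [this]; simp

lemma Maj3_le_of_mem {A B : ℝ} (hB : 0 < B) {z : ℍ} (hz : z ∈ verticalStrip A B) :
    Maj3 z ≤ ∑' v : Fin 2 → ℤ, r ⟨⟨A, B⟩, hB⟩ ^ (-(3 : ℝ)) * ‖v‖ ^ (-(3 : ℝ)) :=
  (summable_norm_eisSummand (k := 3) (by norm_num) z).tsum_le_tsum
    (fun v => norm_eisSummand_le hB hz v) (summable_bound hB)

lemma G3_isBoundedAtImInfty (hc : ∀ v, ‖c v‖ ≤ 1) : IsBoundedAtImInfty (G3 c) := by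
  rw [UpperHalfPlane.isBoundedAtImInfty_iff]
  refine ⟨∑' v : Fin 2 → ℤ, r ⟨⟨1, 1⟩, one_pos⟩ ^ (-(3 : ℝ)) * ‖v‖ ^ (-(3 : ℝ)), 1, fun z hz => ?_⟩
  obtain ⟨n, hn⟩ := ModularGroup_T_zpow_mem_verticalStrip z (N := 1) one_pos
  refine (norm_G3_le hc z).trans ?_
  rw [← Maj3_T_zpow ((1 : ℕ) * n) z]
  apply Maj3_le_of_mem one_pos
  have := verticalStrip_anti_right (1 : ℕ) hz hn
  simpa using this

lemma G3_slash (c : (Fin 2 → ℤ) → ℂ) (γ : SL(2, ℤ)) :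
    G3 c ∣[(3 : ℤ)] γ =
      G3 (fun v => c (v ᵥ* ↑(γ⁻¹))) := by
  ext1 z
  rw [ModularForm.SL_slash_apply, _root_.zpow_neg,
    mul_inv_eq_iff_eq_mul₀ (zpow_ne_zero _ <| denom_ne_zero _ z)]
  unfold G3
  simp_rw [eisSummand_SL2_apply]
  rw [← tsum_mul_right]
  rw [← (vecEquiv γ).tsum_eq (fun v => c (v ᵥ* ↑(γ⁻¹)) *
    eisSummand 3 v z * denom γ z ^ (3 : ℤ))]
  refine tsum_congr fun v => ?_
  have : (vecEquiv γ v) ᵥ* ↑(γ⁻¹) = v :=
    (vecEquiv γ).left_inv v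
  rw [this]
  show _ = c v * eisSummand 3 (v ᵥ* γ) z * _
  ring

lemma G3_tendstoLocallyUniformly (hc : ∀ v, ‖c v‖ ≤ 1) :
    TendstoLocallyUniformly (fun (s : Finset (Fin 2 → ℤ)) ↦ (∑ v ∈ s, c v * eisSummand 3 v ·))
      (G3 c ·) Filter.atTop := by
  simp only [tendstoLocallyUniformly_iff_forall_isCompact, G3]
  intro K hK
  obtain ⟨A, B, hB, HABK⟩ := subset_verticalStrip_of_isCompact hK
  refine (tendstoUniformlyOn_tsum (hu := summable_bound (A := A) hB)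
    (fun p z hz ↦ ?_)).mono HABK
  exact (norm_term_le hc p z).trans (norm_eisSummand_le hB hz p)

lemma G3_tendstoLocallyUniformlyOn (hc : ∀ v, ‖c v‖ ≤ 1) :
    TendstoLocallyUniformlyOn (fun (s : Finset (Fin 2 → ℤ)) ↦
      ↑ₕ(fun (z : ℍ) ↦ ∑ v ∈ s, c v * eisSummand 3 v z)) (↑ₕ(G3 c))
          Filter.atTop {z : ℂ | 0 < z.im} := by
  rw [← upperHalfPlaneSet, ← range_coe, ← Set.image_univ]
  apply TendstoLocallyUniformlyOn.comp (s := ⊤) _ _ _ (OpenPartialHomeomorph.continuousOn_symm _)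
  · simp only [Set.top_eq_univ, tendstoLocallyUniformlyOn_univ]
    exact G3_tendstoLocallyUniformly hc
  · simp only [IsOpenEmbedding.toOpenPartialHomeomorph_target, Set.top_eq_univ,
      Set.mapsTo_range_iff, Set.mem_univ, forall_const]

lemma G3_mdiff (hc : ∀ v, ‖c v‖ ≤ 1) : MDiff (G3 c) := by
  rw [UpperHalfPlane.mdifferentiable_iff]
  refine (G3_tendstoLocallyUniformlyOn hc).differentiableOn
    (Eventually.of_forall fun s ↦ ?_) isOpen_upperHalfPlaneSet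
  have : (↑ₕ(fun (z : ℍ) ↦ ∑ v ∈ s, c v * eisSummand 3 v z)) =
      fun w : ℂ => ∑ v ∈ s, c v * (↑ₕ(eisSummand 3 v)) w := by
    funext w
    simp [Function.comp]
  rw [this]
  exact DifferentiableOn.fun_sum fun v _ ↦
    (eisSummand_extension_differentiableOn 3 v).const_mul (c v)

/-- the points `(n + 1) i`. -/
def zn (n : ℕ) : ℍ := ⟨((n : ℝ) + 1 : ℝ) * Complex.I, by
  have : (0 : ℝ) < (n : ℝ) + 1 := by positivity
  simpa using this⟩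

lemma zn_coe (n : ℕ) : ((zn n : ℍ) : ℂ) = ((n : ℝ) + 1 : ℝ) * Complex.I := rfl

lemma zn_mem (n : ℕ) : zn n ∈ verticalStrip 1 1 := by
  constructor
  · have : (zn n).re = 0 := by
      rw [← UpperHalfPlane.coe_re, zn_coe]; simp
    rw [this]; simp
  · have : (zn n).im = (n : ℝ) + 1 := by
      rw [← UpperHalfPlane.coe_im, zn_coe]; simp
    rw [this]
    have : (0 : ℝ) ≤ n := Nat.cast_nonneg n
    linarith

lemma norm_eisSummand_zn_le (v : Fin 2 → ℤ) (hv : v 0 ≠ 0) (n : ℕ) :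
    ‖eisSummand 3 v (zn n)‖ ≤ (((n : ℝ) + 1) ^ 3)⁻¹ := by
  have hn : (0 : ℝ) < (n : ℝ) + 1 := by positivity
  have h1 : (n : ℝ) + 1 ≤ ‖(v 0 : ℂ) * ((zn n : ℍ) : ℂ) + (v 1 : ℂ)‖ := by
    have h2 : ((v 0 : ℂ) * ((zn n : ℍ) : ℂ) + (v 1 : ℂ)).im = (v 0 : ℝ) * ((n : ℝ) + 1) := by
      rw [zn_coe]; simp
    have h3 := Complex.abs_im_le_norm ((v 0 : ℂ) * ((zn n : ℍ) : ℂ) + (v 1 : ℂ))
    rw [h2, abs_mul, abs_of_pos hn] at h3
    have h4 : (1 : ℝ) ≤ |(v 0 : ℝ)| := by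
      have : (1 : ℤ) ≤ |v 0| := Int.one_le_abs hv
      exact_mod_cast this
    nlinarith
  simp only [eisSummand, norm_zpow]
  rw [_root_.zpow_neg]
  apply inv_anti₀ (by positivity)
  have : ‖(v 0 : ℂ) * ((zn n : ℍ) : ℂ) + (v 1 : ℂ)‖ ^ (3 : ℤ) =
      ‖(v 0 : ℂ) * ((zn n : ℍ) : ℂ) + (v 1 : ℂ)‖ ^ (3 : ℕ) := by norm_cast
  rw [this]
  exact pow_le_pow_left₀ hn.le h1 3

lemma G3_tendsto (hc : ∀ v, ‖c v‖ ≤ 1) :
    Tendsto (fun n : ℕ => G3 c (zn n)) atTop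
      (𝓝 (∑' v : Fin 2 → ℤ, if v 0 = 0 then c v * ((v 1 : ℤ) : ℂ) ^ (-(3 : ℤ)) else 0)) := by
  unfold G3
  refine tendsto_tsum_of_dominated_convergence (summable_bound (A := 1) one_pos) (fun v => ?_)
    (Eventually.of_forall fun n v => (norm_term_le hc v _).trans
      (norm_eisSummand_le one_pos (zn_mem n) v))
  by_cases hv : v 0 = 0
  · simp only [hv, if_true, eisSummand, Int.cast_zero, zero_mul, zero_add]
    exact tendsto_const_nhds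
  · simp only [hv, if_false]
    rw [tendsto_zero_iff_norm_tendsto_zero]
    have h0 : Tendsto (fun n : ℕ => (((n : ℝ) + 1) ^ 3)⁻¹) atTop (𝓝 0) := by
      apply Tendsto.inv_tendsto_atTop
      apply (tendsto_pow_atTop (by norm_num)).comp
      exact tendsto_atTop_add_const_right _ _ tendsto_natCast_atTop_atTop
    refine squeeze_zero (fun _ => norm_nonneg _) (fun n => ?_) h0
    exact (norm_term_le hc v _).trans (norm_eisSummand_zn_le v hv n)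

end

end Fermat.Agent.S48.W2x
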