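import Fermat.Agent.S23.Main
import Fermat.Prelude.Thm_ModularForm_sturm_bound_of_isArithmetic

/-!
# S48 / W2x : the machine of S23 for an arbitrary finite index subgroup `Γ ≤ SL₂(ℤ)`

`S23/{Cramer, Integrality, Division, Conj, Main}` are stated for `Γ₀(N)`, but the proofs only use
that the group has finite index in `SL₂(ℤ)` and contains `T` (period `1`).  This file is the
generic version.  Input: a *primitive element*, i.e. a modular form `h` for `Γ` with rational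
`q`-coefficients of bounded denominator whose stabiliser in `SL₂(ℤ)` is contained in `Γ`.
Output: conjugation of cusp forms by ring endomorphisms of `ℂ`, bounded denominators, and the
integral structure.
-/

set_option autoImplicit false

namespace Fermat.Agent.S48.W2x

open Fermat.Agent.S23
open UpperHalfPlane ModularForm Filter Topology
open scoped MatrixGroups Manifold

/-- `Γ ≤ SL₂(ℤ)` as a subgroup of `GL₂(ℝ)` (this is what the coercion in `CuspForm Γ k`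
unfolds to). -/
abbrev GG (Γ : Subgroup SL(2, ℤ)) : Subgroup (GL (Fin 2) ℝ) :=
  Subgroup.map (Matrix.SpecialLinearGroup.mapGL ℝ) Γ

theorem GG_le_SL (Γ : Subgroup SL(2, ℤ)) : GG Γ ≤ 𝒮ℒ := by
  rintro _ ⟨γ, _, rfl⟩
  exact ⟨γ, rfl⟩

/-- A level one form is a form for `Γ`. -/
theorem isMF_of_levelOne (Γ : Subgroup SL(2, ℤ)) {k : ℤ} {F : ℍ → ℂ} (hF : IsMF 𝒮ℒ k F) :
    IsMF (GG Γ) k F := by
  obtain ⟨f, rfl⟩ := hF
  exact ⟨{ toFun := f
           slash_action_eq' := fun γ hγ => f.slash_action_eq' γ (GG_le_SL Γ hγ)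
           holo' := f.holo'
           bdd_at_cusps' := fun hc => f.bdd_at_cusps' (hc.mono (GG_le_SL Γ)) }, rfl⟩

open CramerAux SlashInvariantForm in
/-- (C) Cramer's rule. -/
theorem cramer (Γ : Subgroup SL(2, ℤ)) [Γ.FiniteIndex] (l : ℤ) (h : ModularForm (GG Γ) l)
    (hstab : ∀ γ : SL(2, ℤ), (⇑h ∣[l] γ = ⇑h) → γ ∈ Γ)
    (k : ℤ) (f : ModularForm (GG Γ) k) :
    ∃ (n : ℕ) (w : ℤ) (D : ℍ → ℂ) (x : Fin n → ℍ → ℂ),
      IsMF 𝒮ℒ w D ∧ D ≠ 0 ∧ (∀ j : Fin n, IsMF 𝒮ℒ (w + k - l * (j : ℕ)) (x j)) ∧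
      D * ⇑f = ∑ j : Fin n, x j * (⇑h) ^ (j : ℕ) := by
  classical
  have hfin : Finite ((𝒮ℒ : Subgroup (GL (Fin 2) ℝ)) ⧸ ((GG Γ).subgroupOf 𝒮ℒ)) :=
    Subgroup.finite_quotient_of_finiteIndex
  let _ : Fintype ((𝒮ℒ : Subgroup (GL (Fin 2) ℝ)) ⧸ ((GG Γ).subgroupOf 𝒮ℒ)) := Fintype.ofFinite _
  set n := Fintype.card ((𝒮ℒ : Subgroup (GL (Fin 2) ℝ)) ⧸ ((GG Γ).subgroupOf 𝒮ℒ)) with hn
  let e : Fin n ≃ ((𝒮ℒ : Subgroup (GL (Fin 2) ℝ)) ⧸ ((GG Γ).subgroupOf 𝒮ℒ)) :=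
    (Fintype.equivFin _).symm
  set φ : Fin n → ℍ → ℂ := fun a => quotientFunc h (e a) with hφ
  set ψ : Fin n → ℍ → ℂ := fun a => quotientFunc f (e a) with hψ
  set V : Matrix (Fin n) (Fin n) (ℍ → ℂ) := Matrix.vandermonde φ with hV
  set r : Fin n → ℤ := fun i => l * ((i : ℕ) : ℤ) with hr
  have hH : ∀ i j, IsMF 𝒮ℒ (r i + r j) ((V.transpose * V) i j) := by
    intro i j
    have h1 : (V.transpose * V) i j =
        ∑ q : (𝒮ℒ : Subgroup (GL (Fin 2) ℝ)) ⧸ ((GG Γ).subgroupOf 𝒮ℒ),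
          quotientFunc (h.pow ((i : ℕ) + (j : ℕ))) q := by
      rw [Matrix.mul_apply, ← Equiv.sum_comp e]
      refine Finset.sum_congr rfl fun a _ => ?_
      rw [quotientFunc_pow, Matrix.transpose_apply, hV, Matrix.vandermonde_apply,
        Matrix.vandermonde_apply, pow_add]
    rw [h1]
    refine isMF_cast ?_ (isMF_sum_quotientFunc (h.pow ((i : ℕ) + (j : ℕ))))
    simp only [hr]
    push_cast
    ring
  have ht : ∀ i, IsMF 𝒮ℒ (k + r i) (V.transpose.mulVec ψ i) := by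
    intro i
    have h1 : V.transpose.mulVec ψ i =
        ∑ q : (𝒮ℒ : Subgroup (GL (Fin 2) ℝ)) ⧸ ((GG Γ).subgroupOf 𝒮ℒ),
          quotientFunc ((h.pow (i : ℕ)).mul f) q := by
      rw [Matrix.mulVec, dotProduct, ← Equiv.sum_comp e]
      refine Finset.sum_congr rfl fun a _ => ?_
      rw [quotientFunc_mul, quotientFunc_pow, Matrix.transpose_apply, hV,
        Matrix.vandermonde_apply]
    rw [h1]
    refine isMF_cast ?_ (isMF_sum_quotientFunc ((h.pow (i : ℕ)).mul f))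
    simp only [hr]
    ring
  have hdiff : ∀ a, MDiff (φ a) := fun a => mdiff_quotientFunc h (e a)
  have hinj : ∀ a b, φ a = φ b → a = b := by
    intro a b hab
    apply e.injective
    obtain ⟨g, hg⟩ := QuotientGroup.mk_surjective (e a)
    obtain ⟨g', hg'⟩ := QuotientGroup.mk_surjective (e b)
    have ha : φ a = ⇑h ∣[l] (g.val⁻¹ : GL (Fin 2) ℝ) := by
      simp only [hφ]
      rw [← hg]
      rfl
    have hb : φ b = ⇑h ∣[l] (g'.val⁻¹ : GL (Fin 2) ℝ) := by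
      simp only [hφ]
      rw [← hg']
      rfl
    rw [ha, hb] at hab
    have h1 : ⇑h ∣[l] ((g.val⁻¹ : GL (Fin 2) ℝ) * g'.val) = ⇑h := by
      rw [SlashAction.slash_mul, hab, ← SlashAction.slash_mul, inv_mul_cancel,
        SlashAction.slash_one]
    obtain ⟨γ, hγ⟩ : ∃ γ : SL(2, ℤ), Matrix.SpecialLinearGroup.mapGL ℝ γ =
        (g.val⁻¹ : GL (Fin 2) ℝ) * g'.val := (g⁻¹ * g').2
    have h2 : γ ∈ Γ := by
      apply hstab
      rw [ModularForm.SL_slash]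
      rw [← hγ] at h1
      exact h1
    rw [← hg, ← hg', QuotientGroup.eq, Subgroup.mem_subgroupOf]
    exact ⟨γ, h2, hγ⟩
  have hdetV : MDiff V.det ∧ V.det ≠ 0 := by
    rw [hV, Matrix.det_vandermonde]
    have h1 : ∀ i : Fin n, ∀ j ∈ Finset.Ioi i, MDiff (φ j - φ i) := fun i j _ =>
      (hdiff j).sub (hdiff i)
    have h2 : ∀ i : Fin n, MDiff (∏ j ∈ Finset.Ioi i, (φ j - φ i)) := fun i =>
      MDifferentiable.prod (h1 i)
    refine ⟨MDifferentiable.prod fun i _ => h2 i, ?_⟩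
    intro h0
    obtain ⟨i, -, hi⟩ := (UpperHalfPlane.prod_eq_zero_iff fun i _ => h2 i).1 h0
    obtain ⟨j, hj, hij⟩ := (UpperHalfPlane.prod_eq_zero_iff (h1 i)).1 hi
    have := hinj j i (sub_eq_zero.1 hij)
    rw [Finset.mem_Ioi] at hj
    exact hj.ne' this
  refine ⟨n, ∑ i, r i + ∑ j, r j, (V.transpose * V).det,
    (V.transpose * V).adjugate.mulVec (V.transpose.mulVec ψ),
    isMF_det _ r r hH, ?_, ?_, ?_⟩
  · rw [Matrix.det_mul, Matrix.det_transpose]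
    intro h0
    rcases (UpperHalfPlane.mul_eq_zero_iff hdetV.1 hdetV.1).1 h0 with h0 | h0 <;>
      exact hdetV.2 h0
  · intro j
    rw [Matrix.mulVec, dotProduct]
    refine isMF_sum _ fun i _ => ?_
    refine isMF_cast ?_ (isMF_mul (isMF_adjugate _ r r hH j i) (ht i))
    simp only [hr]
    ring
  · have h1 := congrFun (vandermonde_identity V ψ) (e.symm (QuotientGroup.mk 1))
    have hφ1 : φ (e.symm (QuotientGroup.mk 1)) = ⇑h := by
      simp only [hφ, Equiv.apply_symm_apply]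
      change ⇑h ∣[l] ((1 : (𝒮ℒ : Subgroup (GL (Fin 2) ℝ))).val⁻¹ : GL (Fin 2) ℝ) = ⇑h
      simp
    have hψ1 : ψ (e.symm (QuotientGroup.mk 1)) = ⇑f := by
      simp only [hψ, Equiv.apply_symm_apply]
      change ⇑f ∣[k] ((1 : (𝒮ℒ : Subgroup (GL (Fin 2) ℝ))).val⁻¹ : GL (Fin 2) ℝ) = ⇑f
      simp
    rw [Pi.smul_apply, hψ1, smul_eq_mul] at h1
    rw [← h1, Matrix.mulVec, dotProduct]
    refine Finset.sum_congr rfl fun j _ => ?_
    rw [hV, Matrix.vandermonde_apply, hφ1, mul_comm]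

open SlashInvariantForm in
/-- (E) integrality -/
theorem integrality (Γ : Subgroup SL(2, ℤ)) [Γ.FiniteIndex] (k : ℤ) (f : CuspForm (GG Γ) k) :
    ∃ (n : ℕ) (c : Fin n → ℍ → ℂ),
      (∀ i : Fin n, IsCF 𝒮ℒ (k * ((i : ℕ) + 1)) (c i)) ∧
      (⇑f) ^ n + ∑ i : Fin n, c i * (⇑f) ^ (n - 1 - (i : ℕ)) = 0 := by
  classical
  let _ : Fintype (𝒮ℒ ⧸ ((GG Γ).subgroupOf 𝒮ℒ)) := Fintype.ofFinite _
  refine ⟨Fintype.card (𝒮ℒ ⧸ ((GG Γ).subgroupOf 𝒮ℒ)),
    fun i => esymmFun (ℋ := 𝒮ℒ) (-f) ((i : ℕ) + 1), fun i => ?_, ?_⟩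
  · have h : IsCF 𝒮ℒ (k * (((i : ℕ) + 1 : ℕ) : ℤ)) (esymmFun (ℋ := 𝒮ℒ) (-f) ((i : ℕ) + 1)) :=
      ⟨esymmForm (ℋ := 𝒮ℒ) (-f) (Nat.succ_pos (i : ℕ)), rfl⟩
    rwa [Nat.cast_add, Nat.cast_one] at h
  · unfold esymmFun
    rw [← prod_add_eq_esymm]
    refine Finset.prod_eq_zero (Finset.mem_univ (⟦1⟧ : 𝒮ℒ ⧸ ((GG Γ).subgroupOf 𝒮ℒ))) ?_
    rw [quotientFunc_mk]
    simp

/-- **(V) Division.** -/
theorem division (Γ : Subgroup SL(2, ℤ)) [Γ.FiniteIndex] (k w : ℤ) (n : ℕ) (U D : ℍ → ℂ)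
    (hU : IsMF (GG Γ) (w + k) U) (hD : IsMF (GG Γ) w D) (hD0 : D ≠ 0)
    (c : Fin n → ℍ → ℂ) (hc : ∀ i : Fin n, IsCF 𝒮ℒ (k * ((i : ℕ) + 1)) (c i))
    (heq : U ^ n + ∑ i : Fin n, c i * U ^ (n - 1 - (i : ℕ)) * D ^ ((i : ℕ) + 1) = 0) :
    ∃ g : CuspForm (GG Γ) k, D * ⇑g = U := by
  obtain ⟨fU, rfl⟩ := hU
  obtain ⟨fD, rfl⟩ := hD
  choose fc hfc using hc
  have hcM : ∀ i, MDiff (c i) := fun i => hfc i ▸ (fc i).holo'
  obtain ⟨G, hG, hDG⟩ : ∃ G : ℍ → ℂ, MDiff G ∧ ⇑fD * G = ⇑fU :=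
    exists_mdiff_quotient fU.holo' fD.holo' hD0 hcM heq
  -- monic relation for G
  have hrel : ∀ τ, G τ ^ n + ∑ i : Fin n, c i τ * G τ ^ (n - 1 - (i : ℕ)) = 0 := by
    set R : ℍ → ℂ := G ^ n + ∑ i : Fin n, c i * G ^ (n - 1 - (i : ℕ)) with hR
    have hRM : MDiff R := by
      refine (hG.pow n).add ?_
      exact MDifferentiable.sum fun i _ => (hcM i).mul (hG.pow _)
    have hDR : ⇑fD * R = 0 := by
      ext τ
      by_cases hτ : fD τ = 0
      · simp [hτ]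
      · have h1 : fU τ ^ n + ∑ i : Fin n, c i τ * fU τ ^ (n - 1 - (i : ℕ)) * fD τ ^ ((i : ℕ) + 1) = 0 := by
          simpa using congrFun heq τ
        have h2 : fU τ = fD τ * G τ := (congrFun hDG τ).symm
        have h3 : fD τ ^ n * R τ = 0 := by
          rw [← h1, h2]
          simp only [hR, Pi.add_apply, Pi.pow_apply, Finset.sum_apply, Pi.mul_apply]
          rw [mul_add, Finset.mul_sum, mul_pow]
          congr 1
          refine Finset.sum_congr rfl fun i _ => ?_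
          have hi : fD τ ^ n = fD τ ^ (n - 1 - (i : ℕ)) * fD τ ^ ((i : ℕ) + 1) := by
            rw [← pow_add]; congr 1; have := i.2; omega
          rw [hi, mul_pow]; ring
        have h4 : R τ = 0 := (mul_eq_zero.mp h3).resolve_left (pow_ne_zero _ hτ)
        simp [h4]
    have hR0 : R = 0 := ((UpperHalfPlane.mul_eq_zero_iff fD.holo' hRM).mp hDR).resolve_left hD0
    intro τ
    have := congrFun hR0 τ
    simpa [hR] using this
  -- invariance
  have hinv : ∀ γ ∈ GG Γ, G ∣[k] γ = G := by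
    rintro _ ⟨γ, hγ, rfl⟩
    have hmem : Matrix.SpecialLinearGroup.mapGL ℝ γ ∈ GG Γ := ⟨γ, hγ, rfl⟩
    have h1 : (⇑fD * G) ∣[w + k] γ = (⇑fD ∣[w] γ) * (G ∣[k] γ) := mul_slash_SL2 w k γ _ _
    have h2 : ⇑fD ∣[w] γ = ⇑fD := fD.slash_action_eq' _ hmem
    have h3 : ⇑fU ∣[w + k] γ = ⇑fU := fU.slash_action_eq' _ hmem
    rw [hDG, h2, h3] at h1
    have h4 : ⇑fD * (G ∣[k] γ - G) = 0 := by
      rw [mul_sub, ← h1, hDG, sub_self]
    have h5 := ((UpperHalfPlane.mul_eq_zero_iff fD.holo' ((hG.slash k _).sub hG)).mp h4).resolve_left hD0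
    exact sub_eq_zero.mp h5
  -- zero at cusps
  have hzero : ∀ γ : SL(2, ℤ), IsZeroAtImInfty (G ∣[k] γ) := by
    intro γ
    have hn : n ≠ 0 := by
      rintro rfl
      simpa using hrel I
    -- the translated function satisfies the same equation
    have hrel' : ∀ τ, (G ∣[k] γ) τ ^ n +
        ∑ i : Fin n, c i τ * (G ∣[k] γ) τ ^ (n - 1 - (i : ℕ)) = 0 := by
      intro τ
      set ε : ℂ := denom γ τ ^ (-k) with hε
      have hG' : (G ∣[k] γ) τ = G (γ • τ) * ε := SL_slash_apply _ _ _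
      have hci : ∀ i : Fin n, c i τ = c i (γ • τ) * ε ^ ((i : ℕ) + 1) := by
        intro i
        have h1 : ⇑(fc i) ∣[k * (((i : ℕ) : ℤ) + 1)] γ = ⇑(fc i) :=
          (fc i).slash_action_eq' _ ⟨γ, rfl⟩
        have h2 := congrFun h1 τ
        rw [SL_slash_apply, hfc i] at h2
        rw [← h2, hε, ← zpow_natCast, ← zpow_mul]
        congr 2
        push_cast
        ring
      have h3 : (G ∣[k] γ) τ ^ n + ∑ i : Fin n, c i τ * (G ∣[k] γ) τ ^ (n - 1 - (i : ℕ)) =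
          ε ^ n * (G (γ • τ) ^ n + ∑ i : Fin n, c i (γ • τ) * G (γ • τ) ^ (n - 1 - (i : ℕ))) := by
        rw [mul_add, Finset.mul_sum, hG', mul_pow]
        congr 1
        · ring
        · refine Finset.sum_congr rfl fun i _ => ?_
          have hi : ε ^ n = ε ^ (n - 1 - (i : ℕ)) * ε ^ ((i : ℕ) + 1) := by
            rw [← pow_add]; congr 1; have := i.2; omega
          rw [hci i, hi, mul_pow]; ring
      rw [h3, hrel, mul_zero]
    have hS : Tendsto (fun τ : ℍ => ∑ i : Fin n, ‖c i τ‖) atImInfty (𝓝 0) := by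
      have : Tendsto (fun τ : ℍ => ∑ i : Fin n, ‖c i τ‖) atImInfty (𝓝 (∑ i : Fin n, (0 : ℝ))) := by
        refine tendsto_finsetSum _ fun i _ => ?_
        have h1 : IsZeroAtImInfty (fc i) := CuspFormClass.zero_at_infty (fc i)
        rw [hfc i] at h1
        exact tendsto_zero_iff_norm_tendsto_zero.mp h1
      simpa using this
    have hpow : Tendsto (fun τ : ℍ => ‖(G ∣[k] γ) τ‖ ^ n) atImInfty (𝓝 0) := by
      refine squeeze_zero' (Eventually.of_forall fun τ => by positivity) ?_ hS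
      filter_upwards [hS.eventually (ge_mem_nhds (show (0 : ℝ) < 1 by norm_num))] with τ hτ
      exact norm_pow_le_of_monic_root _ _ (hrel' τ) hτ
    have h4 := hpow.rpow_const (p := (n : ℝ)⁻¹) (Or.inr (by positivity))
    rw [Real.zero_rpow (by positivity)] at h4
    refine tendsto_zero_iff_norm_tendsto_zero.mpr (h4.congr fun τ => ?_)
    exact Real.pow_rpow_inv_natCast (norm_nonneg _) hn
  refine ⟨{ toFun := G, slash_action_eq' := hinv, holo' := hG, zero_at_cusps' := ?_ }, hDG⟩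
  intro c hc
  rw [Subgroup.IsArithmetic.isCusp_iff_isCusp_SL2Z] at hc
  rw [OnePoint.isZeroAt_iff_forall_SL2Z hc]
  exact fun γ _ => hzero γ

/-- **Conjugation theorem.** -/
theorem conj_cuspForm (Γ : Subgroup SL(2, ℤ)) [Γ.FiniteIndex] (hT : (1 : ℝ) ∈ (GG Γ).strictPeriods) {l : ℤ} (h : ModularForm (GG Γ) l) (hBD : BD (qe h))
    (hstab : ∀ γ : SL(2, ℤ), (⇑h ∣[l] γ = ⇑h) → γ ∈ Γ)
    (k : ℤ) (f : CuspForm (GG Γ) k) (σ : ℂ →+* ℂ) :
    ∃ g : CuspForm (GG Γ) k, qe g = (qe f).map σ := by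
  have hfN : Nice (⇑f) := (IsCF.isMF ⟨f, rfl⟩ : IsMF (GG Γ) k f).nice_of_strictPeriods hT
  have hhMF : IsMF (GG Γ) l h := ⟨h, rfl⟩
  have hhN : Nice (⇑h) := hhMF.nice_of_strictPeriods hT
  obtain ⟨n₁, w, D, x, hD, hD0, hx, hDf⟩ := cramer Γ l h hstab k (ModularFormClass.modularForm f)
  obtain ⟨n, c, hc, hint⟩ := integrality Γ k f
  replace hDf : D * ⇑f = ∑ j : Fin n₁, x j * (⇑h) ^ (j : ℕ) := hDf
  -- conjugates
  obtain ⟨D', hD', hqD'⟩ := levelOne_conj σ hD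
  choose x' hx' hqx' using fun j => levelOne_conj σ (hx j)
  choose c' hc' hqc' using fun i => levelOne_conj_cusp σ (hc i)
  set φ : PowerSeries ℂ := (qe f).map σ with hφ
  set U : ℍ → ℂ := ∑ j : Fin n₁, x' j * (⇑h) ^ (j : ℕ) with hU
  have hpowMF : ∀ j : ℕ, IsMF (GG Γ) (l * j) ((⇑h) ^ j) := fun j =>
    ⟨(h.pow j).mcast (by ring), by simp⟩
  have hUMF : IsMF (GG Γ) (w + k) U := by
    refine CramerAux.isMF_sum _ fun j _ => ?_
    exact CramerAux.isMF_cast (by ring) (CramerAux.isMF_mul (isMF_of_levelOne Γ (hx' j)) (hpowMF j))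
  have hD'MF : IsMF (GG Γ) w D' := isMF_of_levelOne Γ hD'
  have hUN : Nice U := hUMF.nice_of_strictPeriods hT
  have hD'N : Nice D' := hD'MF.nice_of_strictPeriods hT
  have hDN : Nice D := hD.nice_one
  -- `qe D' * φ = qe U`
  have hkey : qe D' * φ = qe U := by
    have h1 : qe D * qe f = ∑ j : Fin n₁, qe (x j) * qe h ^ (j : ℕ) := by
      rw [← hDN.qe_mul hfN, hDf, Nice.qe_sum _ fun j _ => (hx j).nice_one.mul (hhN.pow _)]
      refine Finset.sum_congr rfl fun j _ => ?_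
      rw [(hx j).nice_one.qe_mul (hhN.pow _), hhN.qe_pow]
    have h2 := congrArg (PowerSeries.map σ) h1
    rw [map_mul, map_sum] at h2
    rw [hqD', hφ, h2, hU, Nice.qe_sum _ fun j _ => (hx' j).nice_one.mul (hhN.pow _)]
    refine Finset.sum_congr rfl fun j _ => ?_
    rw [(hx' j).nice_one.qe_mul (hhN.pow _), hhN.qe_pow, map_mul, map_pow, hBD.map_eq, hqx']
  have hqD'0 : qe D' ≠ 0 := by
    rw [hqD']
    intro h0
    have h1 : qe D = 0 := by
      apply PowerSeries.map_injective σ σ.injective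
      rw [h0, map_zero]
    exact hD0 (hDN.qe_eq_zero_iff.mp h1)
  have hD'0 : D' ≠ 0 := by
    intro h0
    apply hqD'0
    rw [h0]
    exact qExpansion_zero 1
  -- integrality of `φ`
  have hcN : ∀ i, Nice (c i) := fun i => (hc i).isMF.nice_one
  have hc'N : ∀ i, Nice (c' i) := fun i => (hc' i).isMF.nice_one
  have hφint : φ ^ n + ∑ i : Fin n, qe (c' i) * φ ^ (n - 1 - (i : ℕ)) = 0 := by
    have h1 : qe f ^ n + ∑ i : Fin n, qe (c i) * qe f ^ (n - 1 - (i : ℕ)) = 0 := by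
      have h2 := congrArg qe hint
      rw [(hfN.pow n).qe_add (Nice.sum _ fun i _ => (hcN i).mul (hfN.pow _)), hfN.qe_pow,
        Nice.qe_sum _ fun i _ => (hcN i).mul (hfN.pow _)] at h2
      rw [show qe (0 : ℍ → ℂ) = 0 from qExpansion_zero 1] at h2
      rw [← h2]
      congr 1
      refine Finset.sum_congr rfl fun i _ => ?_
      rw [(hcN i).qe_mul (hfN.pow _), hfN.qe_pow]
    have h3 := congrArg (PowerSeries.map σ) h1
    rw [map_add, map_sum, map_pow, map_zero] at h3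
    rw [← h3]
    congr 1
    refine Finset.sum_congr rfl fun i _ => ?_
    rw [map_mul, map_pow, hqc']
  -- the homogeneous equation for `U`, `D'`
  have heq : U ^ n + ∑ i : Fin n, c' i * U ^ (n - 1 - (i : ℕ)) * D' ^ ((i : ℕ) + 1) = 0 := by
    have hN : Nice (U ^ n + ∑ i : Fin n, c' i * U ^ (n - 1 - (i : ℕ)) * D' ^ ((i : ℕ) + 1)) :=
      (hUN.pow n).add (Nice.sum _ fun i _ => ((hc'N i).mul (hUN.pow _)).mul (hD'N.pow _))
    rw [← hN.qe_eq_zero_iff, (hUN.pow n).qe_add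
      (Nice.sum _ fun i _ => ((hc'N i).mul (hUN.pow _)).mul (hD'N.pow _)), hUN.qe_pow,
      Nice.qe_sum _ fun i _ => ((hc'N i).mul (hUN.pow _)).mul (hD'N.pow _)]
    have h1 : qe U ^ n + ∑ i : Fin n, qe (c' i * U ^ (n - 1 - (i : ℕ)) * D' ^ ((i : ℕ) + 1)) =
        qe D' ^ n * (φ ^ n + ∑ i : Fin n, qe (c' i) * φ ^ (n - 1 - (i : ℕ))) := by
      rw [mul_add, Finset.mul_sum, ← hkey, mul_pow]
      congr 1
      refine Finset.sum_congr rfl fun i _ => ?_
      rw [((hc'N i).mul (hUN.pow _)).qe_mul (hD'N.pow _), (hc'N i).qe_mul (hUN.pow _), hUN.qe_pow,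
        hD'N.qe_pow, ← hkey, mul_pow]
      have hi : qe D' ^ n = qe D' ^ (n - 1 - (i : ℕ)) * qe D' ^ ((i : ℕ) + 1) := by
        rw [← pow_add]; congr 1; have := i.2; omega
      rw [hi]; ring
    rw [h1, hφint, mul_zero]
  obtain ⟨g, hg⟩ := division Γ k w n U D' hUMF hD'MF hD'0 c' hc' heq
  refine ⟨g, ?_⟩
  have hgN : Nice (⇑g) := (IsCF.isMF ⟨g, rfl⟩ : IsMF (GG Γ) k g).nice_of_strictPeriods hT
  have h1 : qe D' * qe g = qe D' * φ := by
    rw [← hD'N.qe_mul hgN, hg, hkey]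
  exact mul_left_cancel₀ hqD'0 h1

section Main

variable {Γ : Subgroup SL(2, ℤ)} (hT : (1 : ℝ) ∈ (GG Γ).strictPeriods)

include hT in
theorem cuspForm_nice {k : ℤ} (f : CuspForm (GG Γ) k) : Nice (⇑f) :=
  (IsCF.isMF ⟨f, rfl⟩ : IsMF (GG Γ) k f).nice_of_strictPeriods hT

/-- The `q`-expansion coefficients, as a linear map. -/
noncomputable def coeffMap (k : ℤ) : CuspForm (GG Γ) k →ₗ[ℂ] (ℕ → ℂ) where
  toFun f n := (qe f).coeff n
  map_add' f g := by
    funext n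
    have : qe (⇑(f + g)) = qe f + qe g := (cuspForm_nice hT f).qe_add (cuspForm_nice hT g)
    show (qe (⇑(f + g))).coeff n = (qe f).coeff n + (qe g).coeff n
    rw [this, map_add]
  map_smul' c f := by
    funext n
    have : qe (⇑(c • f)) = c • qe f := (cuspForm_nice hT f).qe_smul c
    show (qe (⇑(c • f))).coeff n = c • (qe f).coeff n
    rw [this, PowerSeries.coeff_smul]

theorem coeffMap_apply {k : ℤ} (f : CuspForm (GG Γ) k) (n : ℕ) :
    coeffMap hT k f n = (qe f).coeff n := rfl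

theorem coeffMap_injective (k : ℤ) : Function.Injective (coeffMap hT k) := by
  refine (injective_iff_map_eq_zero _).mpr fun f hf => ?_
  have h1 : qe f = 0 := by
    ext n
    simpa [coeffMap_apply] using congrFun hf n
  have h2 := (cuspForm_nice hT f).qe_eq_zero_iff.mp h1
  exact DFunLike.coe_injective h2

include hT in
/-- Finite dimensionality, from the Sturm bound. -/
theorem finiteDimensional_cuspForm [Γ.FiniteIndex] (k : ℤ) :
    FiniteDimensional ℂ (CuspForm (GG Γ) k) := by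
  set B : ℕ := (k * (GG Γ).relIndex 𝒮ℒ).toNat / 12 with hB
  let T : CuspForm (GG Γ) k →ₗ[ℂ] (Fin (B + 1) → ℂ) :=
    (LinearMap.funLeft ℂ ℂ (fun i : Fin (B + 1) => (i : ℕ))).comp (coeffMap hT k)
  have hTinj : Function.Injective T := by
    refine (injective_iff_map_eq_zero _).mpr fun f hf => ?_
    have hmf : (ModularFormClass.modularForm f : ModularForm (GG Γ) k) = 0 := by
      refine ModularForm.sturm_bound_of_isArithmetic hT ?_
      rw [← hB]
      refine lt_of_lt_of_le (b := ((B + 1 : ℕ) : ℕ∞)) (by exact_mod_cast Nat.lt_succ_self B) ?_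
      refine PowerSeries.nat_le_order _ _ fun n hn => ?_
      have := congrFun hf ⟨n, hn⟩
      simpa [T, coeffMap_apply, LinearMap.funLeft] using this
    have hcoe : (⇑f : ℍ → ℂ) = 0 := by
      have := congrArg (fun F : ModularForm (GG Γ) k => (⇑F : ℍ → ℂ)) hmf
      simpa using this
    exact DFunLike.coe_injective hcoe
  exact FiniteDimensional.of_injective T hTinj

include hT in
/-- **Bounded denominators.** -/
theorem BD_of_rational [Γ.FiniteIndex] {l : ℤ} (h : ModularForm (GG Γ) l) (hBD : BD (qe h))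
    (hstab : ∀ γ : SL(2, ℤ), (⇑h ∣[l] γ = ⇑h) → γ ∈ Γ)
    (k : ℤ) (f : CuspForm (GG Γ) k) (hf : ∀ n, ∃ r : ℚ, (qe f).coeff n = (r : ℂ)) :
    BD (qe f) := by
  have hfN : Nice (⇑f) := cuspForm_nice hT f
  have hhMF : IsMF (GG Γ) l h := ⟨h, rfl⟩
  have hhN : Nice (⇑h) := hhMF.nice_of_strictPeriods hT
  obtain ⟨n₁, w, D, x, hD, hD0, hx, hDf⟩ := cramer Γ l h hstab k (ModularFormClass.modularForm f)
  obtain ⟨n, c, hc, hint⟩ := integrality Γ k f
  replace hDf : D * ⇑f = ∑ j : Fin n₁, x j * (⇑h) ^ (j : ℕ) := hDf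
  choose r hr using hf
  have hg : iotaQ (PowerSeries.mk r) = qe f := by
    ext n
    simp [hr n]
  have hDN : Nice D := hD.nice_one
  have hcN : ∀ i, Nice (c i) := fun i => (hc i).isMF.nice_one
  rw [← hg]
  refine bounded_denominators (PowerSeries.mk r) (qe D) (∑ j : Fin n₁, qe (x j) * qe h ^ (j : ℕ))
    (qe_mem_BB_of_levelOne hD) ?_ ?_ ?_ n (fun i => qe (c i))
    (fun i => qe_mem_BB_of_levelOne (hc i).isMF) ?_
  · exact BB.sum_mem fun j _ => BB.mul_mem (qe_mem_BB_of_levelOne (hx j)) (BB.pow_mem hBD.mem_BB _)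
  · exact fun h0 => hD0 (hDN.qe_eq_zero_iff.mp h0)
  · rw [hg, ← hDN.qe_mul hfN, hDf, Nice.qe_sum _ fun j _ => (hx j).nice_one.mul (hhN.pow _)]
    refine Finset.sum_congr rfl fun j _ => ?_
    rw [(hx j).nice_one.qe_mul (hhN.pow _), hhN.qe_pow]
  · rw [hg]
    have h2 := congrArg qe hint
    rw [(hfN.pow n).qe_add (Nice.sum _ fun i _ => (hcN i).mul (hfN.pow _)), hfN.qe_pow,
      Nice.qe_sum _ fun i _ => (hcN i).mul (hfN.pow _)] at h2
    rw [show qe (0 : ℍ → ℂ) = 0 from qExpansion_zero 1] at h2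
    rw [← h2]
    congr 1
    refine Finset.sum_congr rfl fun i _ => ?_
    rw [(hcN i).qe_mul (hfN.pow _), hfN.qe_pow]

include hT in
/-- **The integral structure**, given a primitive element: `S_k(Γ)` is spanned over `ℂ` by the
forms with integral `q`-expansion. -/
theorem span_int_of_primitive [Γ.FiniteIndex] {l : ℤ} (h : ModularForm (GG Γ) l)
    (hBD : BD (qe h))
    (hstab : ∀ γ : SL(2, ℤ), (⇑h ∣[l] γ = ⇑h) → γ ∈ Γ) (k : ℤ) :
    Submodule.span ℂ {f : CuspForm (GG Γ) k | ∀ n : ℕ, ∃ m : ℤ, (qe f).coeff n = (m : ℂ)} = ⊤ := by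
  have := finiteDimensional_cuspForm hT (Γ := Γ) k
  have hdesc := descent (coeffMap hT k) (coeffMap_injective hT k) (fun σ v => by
    obtain ⟨g, hg⟩ := conj_cuspForm Γ hT h hBD hstab k v σ
    refine ⟨g, fun n => ?_⟩
    rw [coeffMap_apply, coeffMap_apply, hg, PowerSeries.coeff_map])
  rw [eq_top_iff, ← hdesc, Submodule.span_le]
  intro v hv
  obtain ⟨M, hM, hMv⟩ := BD_of_rational hT h hBD hstab k v hv
  have hMC : (M : ℂ) ≠ 0 := by exact_mod_cast hM
  have h1 : (M : ℂ) • v ∈ {f : CuspForm (GG Γ) k | ∀ n : ℕ, ∃ m : ℤ, (qe f).coeff n = (m : ℂ)} := by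
    intro n
    obtain ⟨z, hz⟩ := hMv n
    refine ⟨z, ?_⟩
    have : qe (⇑((M : ℂ) • v)) = (M : ℂ) • qe v := (cuspForm_nice hT v).qe_smul _
    show (qe (⇑((M : ℂ) • v))).coeff n = z
    rw [this, PowerSeries.coeff_smul, smul_eq_mul, hz]
  have h2 : v = (M : ℂ)⁻¹ • ((M : ℂ) • v) := by
    rw [smul_smul, inv_mul_cancel₀ hMC, one_smul]
  rw [h2]
  exact Submodule.smul_mem _ _ (Submodule.subset_span h1)

end Main

end Fermat.Agent.S48.W2x
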