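import Fermat.Agent.S48.W2x.Prim

/-!
# S48 / W2 : the constants `Lam N x` separate `x ≡ 1`      (TASK `S48/W2-Lam`)

`Lam N x = ∑_{y ∈ ℤ} ind N (-(y x)) y⁻³`.

PROOF of `Lam_ne`.  Put `e y = ind N (-(y * 1)) - ind N (-(y * x))`, so `‖e y‖ ≤ 1` (both indicators are `0` or `1`),
and `Lam N 1 - Lam N x = ∑' y, e y * y⁻³` (both series are summable: `‖·‖ ≤ |y|⁻³`,
`Int.summable...`/`summable_one_div_int_pow`/`Real.summable_abs_int_rpow`).
* `y = 0`: the term is `0` (`(0 : ℂ) ^ (-3 : ℤ) = 0`).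
* `y = -1`: `e (-1) = ind N 1 - ind N x = 1 - 0 = 1` (as `x ≢ 1`), `(-1)⁻³ = -1`: the term is `-1`.
* `y = 1`: `e 1 = ind N (-1) - ind N (-x) = - ind N (-x)` (as `-1 ≢ 1 mod N`, `N ≥ 3`): the term is `- ind N (-x) ∈ {0, -1}`.
* `|y| ≥ 2`: `‖term‖ ≤ |y|⁻³`, and `∑_{|y| ≥ 2} |y|⁻³ = 2 ∑_{y ≥ 2} y⁻³ ≤ 2 * (1/4) = 1/2`
  because `y⁻³ ≤ 1/((y-1) y (y+1)) = (1/2) (1/((y-1) y) - 1/(y (y+1)))` telescopes to `1/4`
  (or: `y⁻³ ≤ y⁻²/2` and `hasSum_zeta_two`, `π² / 6 - 1 < 0.65`).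
Hence `‖(Lam N 1 - Lam N x) + (1 + ind N (-x))‖ ≤ 1/2` while `‖1 + ind N (-x)‖ ≥ 1`: `Lam N 1 ≠ Lam N x`.
-/

set_option autoImplicit false

namespace Fermat.Agent.S48.W2x

namespace LamAux

/-- the majorant `|y|⁻³`. -/
theorem summable_maj : Summable fun y : ℤ => |1 / (y : ℝ) ^ 3| := by
  rw [summable_abs_iff, Real.summable_one_div_int_pow]
  norm_num

theorem norm_zpow_eq (y : ℤ) : ‖(y : ℂ) ^ (-(3 : ℤ))‖ = |1 / (y : ℝ) ^ 3| := by
  rw [norm_zpow, Complex.norm_intCast, zpow_neg, abs_div, abs_one, abs_pow, one_div]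
  norm_cast

theorem norm_ind_sub_le (N : ℕ) (a b : ℤ) : ‖ind N a - ind N b‖ ≤ 1 := by
  unfold ind
  split_ifs <;> simp

theorem summable_lam (N : ℕ) (x : ℤ) :
    Summable fun y : ℤ => ind N (-(y * x)) * (y : ℂ) ^ (-(3 : ℤ)) := by
  refine Summable.of_norm_bounded summable_maj fun y => ?_
  rw [norm_mul, norm_zpow_eq]
  exact mul_le_of_le_one_left (abs_nonneg _) (norm_ind_le N _)

/-- partial sums of `∑ 1/(n+2)³` are bounded by `1/4`. -/
theorem sum_range_le (n : ℕ) :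
    ∑ i ∈ Finset.range n, 1 / ((i : ℝ) + 2) ^ 3 ≤ 1 / 4 - 1 / (2 * ((n : ℝ) + 1) * ((n : ℝ) + 2)) := by
  induction n with
  | zero => norm_num
  | succ n ih =>
    rw [Finset.sum_range_succ]
    have hn : (0 : ℝ) ≤ n := Nat.cast_nonneg n
    have key : 1 / ((n : ℝ) + 2) ^ 3 ≤ 1 / (2 * ((n : ℝ) + 1) * ((n : ℝ) + 2)) -
        1 / (2 * (((n + 1 : ℕ) : ℝ) + 1) * (((n + 1 : ℕ) : ℝ) + 2)) := by
      push_cast
      have e : 1 / (2 * ((n : ℝ) + 1) * ((n : ℝ) + 2)) - 1 / (2 * ((n : ℝ) + 1 + 1) * ((n : ℝ) + 1 + 2))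
          = 1 / (((n : ℝ) + 1) * ((n : ℝ) + 2) * ((n : ℝ) + 3)) := by
        field_simp
        ring
      rw [e]
      apply one_div_le_one_div_of_le (by positivity)
      nlinarith
    linarith

theorem tsum_le : ∑' i : ℕ, 1 / ((i : ℝ) + 2) ^ 3 ≤ 1 / 4 := by
  refine Real.tsum_le_of_sum_range_le (fun i => by positivity) fun n => ?_
  have := sum_range_le n
  have h2 : (0 : ℝ) ≤ 1 / (2 * ((n : ℝ) + 1) * ((n : ℝ) + 2)) := by positivity
  linarith

theorem summable_shift : Summable fun i : ℕ => 1 / ((i : ℝ) + 2) ^ 3 := by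
  have h := (Real.summable_one_div_nat_pow (p := 3)).mpr (by norm_num)
  have h2 := (summable_nat_add_iff 2).mpr h
  refine h2.congr fun i => ?_
  push_cast
  rfl

/-- a series on `ℕ` with terms bounded by `1/(n+2)³` has norm at most `1/4`. -/
theorem norm_tsum_le {f : ℕ → ℂ} (hf : ∀ i, ‖f i‖ ≤ 1 / ((i : ℝ) + 2) ^ 3) :
    ‖∑' i, f i‖ ≤ 1 / 4 := by
  have h1 : Summable fun i => ‖f i‖ :=
    Summable.of_nonneg_of_le (fun _ => norm_nonneg _) hf summable_shift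
  exact (norm_tsum_le_tsum_norm h1).trans ((h1.tsum_le_tsum hf summable_shift).trans tsum_le)

end LamAux

open LamAux in
theorem Lam_ne (N : ℕ) (hN : 3 ≤ N) (x : ℤ) (hx : (x : ZMod N) ≠ 1) : Lam N x ≠ Lam N 1 := by
  intro heq
  set d : ℤ → ℂ := fun y => (ind N (-(y * 1)) - ind N (-(y * x))) * (y : ℂ) ^ (-(3 : ℤ)) with hd
  have hdsum : Summable d := by
    have := (summable_lam N 1).sub (summable_lam N x)
    refine this.congr fun y => ?_
    rw [hd]; ring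
  have hD : ∑' y, d y = 0 := by
    have h1 : ∑' y, d y = Lam N 1 - Lam N x := by
      rw [Lam, Lam, ← (summable_lam N 1).tsum_sub (summable_lam N x)]
      refine tsum_congr fun y => ?_
      rw [hd]; ring
    rw [h1, heq, sub_self]
  have hdn : ∀ y : ℤ, ‖d y‖ ≤ |1 / (y : ℝ) ^ 3| := by
    intro y
    rw [hd]
    simp only
    rw [norm_mul, norm_zpow_eq]
    exact mul_le_of_le_one_left (abs_nonneg _) (norm_ind_sub_le N _ _)
  -- split
  have hs1 : Summable fun n : ℕ => d (n : ℤ) :=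
    hdsum.comp_injective Nat.cast_injective
  have hs2 : Summable fun n : ℕ => d (-((n : ℤ) + 1)) :=
    hdsum.comp_injective (fun a b hab => by
      have : ((a : ℤ) + 1) = (b : ℤ) + 1 := neg_injective hab
      exact_mod_cast add_right_cancel this)
  have hsplit := tsum_of_nat_of_neg_add_one hs1 hs2
  have h1 := hs1.sum_add_tsum_nat_add 2
  have h2 := hs2.sum_add_tsum_nat_add 1
  rw [Finset.sum_range_succ, Finset.sum_range_one] at h1
  rw [Finset.sum_range_one] at h2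
  -- the explicit terms
  have hneg1 : ((-1 : ℤ) : ZMod N) ≠ 1 := by
    intro h
    have h3 : ((2 : ℕ) : ZMod N) = 0 := by
      push_cast at h ⊢
      have : (2 : ZMod N) = 1 - (-1) := by ring
      rw [this, h]; ring
    rw [ZMod.natCast_eq_zero_iff] at h3
    have := Nat.le_of_dvd (by norm_num) h3
    omega
  have t0 : d ((0 : ℕ) : ℤ) = 0 := by
    rw [hd]; simp
  have t1 : d ((1 : ℕ) : ℤ) = - ind N (-x) := by
    rw [hd]
    have : ind N (-1) = 0 := by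
      unfold ind; rw [if_neg hneg1]
    simp [this]
  have tm1 : d (-(((0 : ℕ) : ℤ) + 1)) = -1 := by
    rw [hd]
    have e1 : ind N 1 = 1 := by unfold ind; simp
    have e2 : ind N x = 0 := by unfold ind; rw [if_neg hx]
    have e3 : ((-1 : ℂ)) ^ (-(3 : ℤ)) = -1 := by
      rw [zpow_neg]
      norm_num [zpow_ofNat]
    simp [e1, e2, e3]
  -- the tails
  have r1 : ‖∑' i : ℕ, d ((i + 2 : ℕ) : ℤ)‖ ≤ 1 / 4 := by
    refine norm_tsum_le fun i => (hdn _).trans (le_of_eq ?_)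
    push_cast
    rw [abs_of_nonneg (by positivity)]
  have r2 : ‖∑' i : ℕ, d (-(((i + 1 : ℕ) : ℤ) + 1))‖ ≤ 1 / 4 := by
    refine norm_tsum_le fun i => (hdn _).trans (le_of_eq ?_)
    push_cast
    have : (-1 + -(1 + (i : ℝ))) = -((i : ℝ) + 2) := by ring
    rw [abs_div, abs_one, abs_pow]
    congr 2
    rw [show (-((i : ℝ) + 1 + 1)) = -((i : ℝ) + 2) by ring, abs_neg, abs_of_nonneg (by positivity)]
  rw [t0, t1] at h1
  rw [tm1] at h2
  rw [hD, ← h1, ← h2] at hsplit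
  -- conclusion
  set R1 := ∑' i : ℕ, d ((i + 2 : ℕ) : ℤ)
  set R2 := ∑' i : ℕ, d (-(((i + 1 : ℕ) : ℤ) + 1))
  have hfin : 1 + ind N (-x) = R1 + R2 := by
    linear_combination hsplit
  have hle : ‖1 + ind N (-x)‖ ≤ 1 / 2 := by
    rw [hfin]
    refine (norm_add_le _ _).trans ?_
    linarith
  have hge : (1 : ℝ) ≤ ‖1 + ind N (-x)‖ := by
    unfold ind
    split_ifs <;> norm_num
  linarith

end Fermat.Agent.S48.W2x
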