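import Fermat.Agent.S48.W2x.Prim

/-!
# S48 / W2 : the value of `H ∣ γ` at `i∞`      (TASK `S48/W2-Lim`)

PROOF.  `Hfun_slash` + `G3_tendsto (norm_cNγ_le N γ)`: the limit along `zn n = (n+1) i` is
`∑' v, if v 0 = 0 then cNγ N γ v * (v 1)⁻³ else 0`.  This function of `v` is supported on the range
of the injective map `y ↦ ![0, y]` (`Function.Injective.tsum_eq`), and
`cNγ N γ ![0, y] = ind N (0 * γ 1 1 - y * γ 1 0) = ind N (-(y * γ 1 0))`.
-/

set_option autoImplicit false

namespace Fermat.Agent.S48.W2x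

open UpperHalfPlane ModularForm Filter Topology Matrix EisensteinSeries
open scoped MatrixGroups Manifold

theorem tendsto_Hfun_slash (N : ℕ) (γ : SL(2, ℤ)) :
    Tendsto (fun n : ℕ => (Hfun N ∣[(3 : ℤ)] γ) (zn n)) atTop (𝓝 (Lam N (γ 1 0))) := by
  rw [Hfun_slash]
  have h := G3_tendsto (norm_cNγ_le N γ)
  have hinj : Function.Injective (fun y : ℤ => (![0, y] : Fin 2 → ℤ)) := by
    intro y y' hyy
    have := congrFun hyy 1
    simpa using this
  have hsupp : Function.support (fun v : Fin 2 → ℤ =>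
      if v 0 = 0 then cNγ N γ v * ((v 1 : ℤ) : ℂ) ^ (-(3 : ℤ)) else 0) ⊆
      Set.range (fun y : ℤ => (![0, y] : Fin 2 → ℤ)) := by
    intro v hv
    rw [Function.mem_support] at hv
    by_cases h0 : v 0 = 0
    · refine ⟨v 1, ?_⟩
      funext i
      fin_cases i
      · simp [h0]
      · simp
    · simp [h0] at hv
  have heq : (∑' v : Fin 2 → ℤ,
      if v 0 = 0 then cNγ N γ v * ((v 1 : ℤ) : ℂ) ^ (-(3 : ℤ)) else 0) = Lam N (γ 1 0) := by
    rw [← hinj.tsum_eq hsupp, Lam]
    refine tsum_congr fun y => ?_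
    simp [cNγ]
  rw [heq] at h
  exact h

end Fermat.Agent.S48.W2x
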