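import Fermat.Agent.S48.W2x.Stab

/-!
# S48 / W2x : output for `Γ₁(N)`, all weights

* `conj_cuspForm_Gamma1` : for `σ : ℂ →+* ℂ` and `f ∈ S_k(Γ₁(N))` there is `f^σ ∈ S_k(Γ₁(N))` with
  `a_n(f^σ) = σ (a_n f)`;
* `span_int_Gamma1` : `S_k(Γ₁(N))` is spanned over `ℂ` by the forms with integral `q`-coefficients;
* `BD_of_rational_Gamma1` : rational coefficients ⇒ bounded denominators;
* `finiteDimensional_Gamma1`.
-/

set_option autoImplicit false

namespace Fermat.Agent.S48.W2x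

open Fermat.Agent.S23
open UpperHalfPlane ModularForm CongruenceSubgroup
open scoped MatrixGroups Manifold

theorem finiteDimensional_Gamma1 (N : ℕ) [NeZero N] (k : ℤ) :
    FiniteDimensional ℂ (CuspForm (Gamma1 N) k) :=
  finiteDimensional_cuspForm (one_mem_strictPeriods_Gamma1 N) k

/-- **Conjugation.** -/
theorem conj_cuspForm_Gamma1 (N : ℕ) [NeZero N] (k : ℤ) (f : CuspForm (Gamma1 N) k)
    (σ : ℂ →+* ℂ) :
    ∃ g : CuspForm (Gamma1 N) k,
      ∀ n : ℕ, ModularFormClass.qCoeff g n = σ (ModularFormClass.qCoeff f n) := by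
  obtain ⟨l, h, hBD, hstab⟩ := exists_primitive N
  obtain ⟨g, hg⟩ := conj_cuspForm (Gamma1 N) (one_mem_strictPeriods_Gamma1 N) h hBD hstab k f σ
  refine ⟨g, fun n => ?_⟩
  show (qe g).coeff n = σ ((qe f).coeff n)
  rw [hg, PowerSeries.coeff_map]

/-- **Integral structure.** -/
theorem span_int_Gamma1 (N : ℕ) [NeZero N] (k : ℤ) :
    Submodule.span ℂ {f : CuspForm (Gamma1 N) k |
      ∀ n : ℕ, ∃ m : ℤ, ModularFormClass.qCoeff f n = (m : ℂ)} = ⊤ := by
  obtain ⟨l, h, hBD, hstab⟩ := exists_primitive N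
  exact span_int_of_primitive (one_mem_strictPeriods_Gamma1 N) h hBD hstab k

/-- **Bounded denominators.** -/
theorem BD_of_rational_Gamma1 (N : ℕ) [NeZero N] (k : ℤ) (f : CuspForm (Gamma1 N) k)
    (hf : ∀ n, ∃ r : ℚ, ModularFormClass.qCoeff f n = (r : ℂ)) :
    ∃ M : ℤ, M ≠ 0 ∧ ∀ n : ℕ, ∃ z : ℤ, (M : ℂ) * ModularFormClass.qCoeff f n = (z : ℂ) := by
  obtain ⟨l, h, hBD, hstab⟩ := exists_primitive N
  exact BD_of_rational (one_mem_strictPeriods_Gamma1 N) h hBD hstab k f hf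

end Fermat.Agent.S48.W2x
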