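import Fermat.Agent.S48.W2x.Gen
import Fermat.Agent.S48.W2x.G3

/-!
# S48 / W2x : the primitive element for `Γ₁(N)` (definitions, modularity)

`H(τ) = ∑_{v ∈ ℤ², v₀ ≡ 1 (N)} (v₀ τ + v₁)⁻³`, a modular form of weight `3` on `Γ₁(N)`.
* `H ∣ γ = ∑_{v : v₀ γ₁₁ - v₁ γ₁₀ ≡ 1 (N)} (v₀ τ + v₁)⁻³` for `γ ∈ SL₂(ℤ)`  (`Hfun_slash`);
* `q`-expansion `H = K₃ ∑ a_N(n) qⁿ`, `a_N(n) ∈ ℤ`                     (`QExp.lean`);
* value at `i∞` of `H ∣ γ` is `Lam N (γ 1 0)`                            (`Lim.lean`);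
* `Lam N x = Lam N 1 → x ≡ 1 (N)` for `N ≥ 3`                            (`Lam.lean`);
* hence the stabiliser of `H` in `SL₂(ℤ)` is `Γ₁(N)`                     (`Stab.lean`).
-/

set_option autoImplicit false

namespace Fermat.Agent.S48.W2x

open Fermat.Agent.S23
open UpperHalfPlane ModularForm Filter Topology Matrix EisensteinSeries
open scoped MatrixGroups Manifold

noncomputable section

/-- indicator of `x ≡ 1 mod N`. -/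
def ind (N : ℕ) (x : ℤ) : ℂ := if (x : ZMod N) = 1 then 1 else 0

lemma norm_ind_le (N : ℕ) (x : ℤ) : ‖ind N x‖ ≤ 1 := by
  unfold ind
  split_ifs <;> simp

/-- indicator of `v 0 ≡ 1 mod N`. -/
def cN (N : ℕ) (v : Fin 2 → ℤ) : ℂ := ind N (v 0)

lemma norm_cN_le (N : ℕ) (v : Fin 2 → ℤ) : ‖cN N v‖ ≤ 1 := norm_ind_le N _

lemma vecMul_inv_zero (γ : SL(2, ℤ)) (v : Fin 2 → ℤ) :
    (v ᵥ* ((γ⁻¹ : SL(2, ℤ)) : Matrix (Fin 2) (Fin 2) ℤ)) 0 = v 0 * γ 1 1 - v 1 * γ 1 0 := by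
  rw [Matrix.SpecialLinearGroup.SL2_inv_expl]
  simp [Matrix.vecMul, dotProduct, Fin.sum_univ_two]
  ring

/-- the coefficient function of `H ∣ γ`. -/
def cNγ (N : ℕ) (γ : SL(2, ℤ)) (v : Fin 2 → ℤ) : ℂ := ind N (v 0 * γ 1 1 - v 1 * γ 1 0)

lemma norm_cNγ_le (N : ℕ) (γ : SL(2, ℤ)) (v : Fin 2 → ℤ) : ‖cNγ N γ v‖ ≤ 1 := norm_ind_le N _

/-- `H(τ) = ∑_{v₀ ≡ 1 (N)} (v₀ τ + v₁)⁻³`. -/
def Hfun (N : ℕ) : ℍ → ℂ := G3 (cN N)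

theorem Hfun_slash (N : ℕ) (γ : SL(2, ℤ)) : Hfun N ∣[(3 : ℤ)] γ = G3 (cNγ N γ) := by
  rw [Hfun, G3_slash]
  congr 1
  funext v
  rw [cN, cNγ, vecMul_inv_zero]

theorem cNγ_of_mem_Gamma1 (N : ℕ) {γ : SL(2, ℤ)} (hγ : γ ∈ CongruenceSubgroup.Gamma1 N) :
    cNγ N γ = cN N := by
  rw [CongruenceSubgroup.Gamma1_mem] at hγ
  funext v
  rw [cNγ, cN, ind, ind]
  congr 1
  push_cast
  rw [hγ.2.1, hγ.2.2]
  simp

/-- `H` as a modular form of weight `3` on `Γ₁(N)`. -/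
def HForm (N : ℕ) [NeZero N] : ModularForm (GG (CongruenceSubgroup.Gamma1 N)) 3 where
  toFun := Hfun N
  slash_action_eq' := by
    rintro _ ⟨γ, hγ, rfl⟩
    show Hfun N ∣[(3 : ℤ)] γ = Hfun N
    rw [Hfun_slash, cNγ_of_mem_Gamma1 N hγ, Hfun]
  holo' := G3_mdiff (norm_cN_le N)
  bdd_at_cusps' := by
    intro c hc
    rw [Subgroup.IsArithmetic.isCusp_iff_isCusp_SL2Z] at hc
    rw [OnePoint.isBoundedAt_iff_forall_SL2Z hc]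
    intro γ _
    rw [Hfun_slash]
    exact G3_isBoundedAtImInfty (norm_cNγ_le N γ)

@[simp] theorem coe_HForm (N : ℕ) [NeZero N] : ⇑(HForm N) = Hfun N := rfl

theorem one_mem_strictPeriods_Gamma1 (N : ℕ) :
    (1 : ℝ) ∈ (GG (CongruenceSubgroup.Gamma1 N)).strictPeriods := by
  simp [CongruenceSubgroup.strictPeriods_Gamma1]

/-- the constant `(-2πi)³ / 2!`. -/
def K3 : ℂ := (-2 * Real.pi * Complex.I) ^ 3 / 2

theorem K3_ne_zero : K3 ≠ 0 := by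
  unfold K3
  have : (Real.pi : ℂ) ≠ 0 := by exact_mod_cast Real.pi_ne_zero
  simp [this]

/-- the `q`-coefficients of `H / K₃`:
`a_N(n) = ∑_{m ∣ n} ([n/m ≡ 1 (N)] - [n/m ≡ -1 (N)]) m²`. -/
def aN (N : ℕ) (n : ℕ) : ℤ :=
  ∑ m ∈ n.divisors, ((if ((n / m : ℕ) : ZMod N) = 1 then (m : ℤ) ^ 2 else 0) -
    (if ((n / m : ℕ) : ZMod N) = -1 then (m : ℤ) ^ 2 else 0))

/-- the value at `i∞` of `H ∣ γ`, as a function of `x = γ 1 0`: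
`∑_{y ∈ ℤ, - y x ≡ 1 (N)} y⁻³`. -/
def Lam (N : ℕ) (x : ℤ) : ℂ := ∑' y : ℤ, ind N (-(y * x)) * (y : ℂ) ^ (-(3 : ℤ))

end

end Fermat.Agent.S48.W2x
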