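import Mathlib

/-!
# S48 / W2 : the `q`-expansion of `∑_{v₀ ≡ 1 (N)} (v₀ τ + v₁)⁻³`  (Mathlib only)

Core of TASK `S48/W2-QExp`.  Main result `QCore.hasSum_core`.
-/

set_option autoImplicit false

namespace Fermat.Agent.S48.W2x.QCore

open UpperHalfPlane EisensteinSeries Complex
open scoped Real

noncomputable section

local notation "𝕢" => Function.Periodic.qParam

/-- indicator of `x ≡ 1 mod N`. -/
def i1 (N : ℕ) (x : ℤ) : ℂ := if (x : ZMod N) = 1 then 1 else 0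

lemma norm_i1_le (N : ℕ) (x : ℤ) : ‖i1 N x‖ ≤ 1 := by
  unfold i1
  split_ifs <;> simp

/-- `χ(c) = [c ≡ 1] - [c ≡ -1]`. -/
def chi (N : ℕ) (c : ℕ) : ℂ := i1 N c - i1 N (-(c : ℤ))

lemma norm_chi_le (N : ℕ) (c : ℕ) : ‖chi N c‖ ≤ 2 := by
  unfold chi
  calc ‖i1 N c - i1 N (-(c : ℤ))‖ ≤ ‖i1 N c‖ + ‖i1 N (-(c : ℤ))‖ := norm_sub_le _ _
    _ ≤ 1 + 1 := add_le_add (norm_i1_le _ _) (norm_i1_le _ _)
    _ = 2 := by norm_num

/-- the row sums. -/
def row (τ : ℍ) (c : ℤ) : ℂ := ∑' d : ℤ, eisSummand 3 ![c, d] τ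

lemma row_neg (τ : ℍ) (c : ℤ) : row τ (-c) = - row τ c := by
  unfold row
  rw [← tsum_comp_neg, ← tsum_neg]
  refine tsum_congr fun d => ?_
  simp only [eisSummand, Matrix.cons_val_zero, Matrix.cons_val_one, Int.cast_neg]
  have h : (-(c : ℂ) * (τ : ℂ) + -(d : ℂ)) = -((c : ℂ) * τ + d) := by ring
  rw [h, Odd.neg_zpow (by decide : Odd (-3 : ℤ))]

lemma row_zero (τ : ℍ) : row τ 0 = 0 := by
  have h := row_neg τ 0
  rw [neg_zero] at h
  have h2 : (2 : ℂ) * row τ 0 = 0 := by linear_combination h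
  simpa using h2

/-- the constant `(-2πi)³/2`. -/
def K : ℂ := (-2 * π * Complex.I) ^ 3 / 2

lemma row_pnat (τ : ℍ) (c : ℕ+) :
    row τ (c : ℤ) = K * ∑' m : ℕ+, (m : ℂ) ^ 2 * cexp (2 * π * Complex.I * τ) ^ (c * m : ℕ) := by
  have H := qExpansion_identity_pnat (k := 2) (by norm_num) ⟨c * τ, by simpa using τ.2⟩
  unfold row K
  have e1 : ∀ d : ℤ, eisSummand 3 ![(c : ℤ), d] τ = 1 / (((c : ℂ) * (τ : ℂ)) + d) ^ (2 + 1) := by
    intro d
    simp only [eisSummand, Matrix.cons_val_zero, Matrix.cons_val_one]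
    rw [zpow_neg, one_div]
    norm_cast
  rw [tsum_congr e1]
  have H' : ∑' n : ℤ, 1 / (((c : ℂ) * (τ : ℂ)) + n) ^ (2 + 1) = ((-2 * π * Complex.I) ^ (2 + 1) / (Nat.factorial 2 : ℕ)) *
      ∑' n : ℕ+, (n : ℂ) ^ 2 * cexp (2 * π * Complex.I * ((c : ℂ) * τ)) ^ (n : ℕ) := H
  rw [H']
  have hK : (-2 * π * Complex.I) ^ (2 + 1) / ((Nat.factorial 2 : ℕ) : ℂ) = (-2 * π * Complex.I) ^ 3 / 2 := by
    norm_num [Nat.factorial]
  rw [hK]
  congr 1
  refine tsum_congr fun m => ?_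
  congr 1
  rw [← Complex.exp_nat_mul, ← Complex.exp_nat_mul]
  congr 1
  push_cast
  ring

lemma summable_prod (N : ℕ) (τ : ℍ) :
    Summable fun x : ℤ × ℤ => i1 N x.1 * eisSummand 3 ![x.1, x.2] τ := by
  have h := (summable_prod_eisSummand (k := 3) le_rfl τ).norm
  refine Summable.of_norm_bounded h fun x => ?_
  rw [norm_mul]
  exact mul_le_of_le_one_left (norm_nonneg _) (norm_i1_le N _)

/-- Step A: sum by rows. -/
lemma tsum_eq_rows (N : ℕ) (τ : ℍ) :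
    ∑' v : Fin 2 → ℤ, i1 N (v 0) * eisSummand 3 v τ = ∑' c : ℤ, i1 N c * row τ c := by
  rw [← (finTwoArrowEquiv ℤ).symm.tsum_eq]
  simp only [finTwoArrowEquiv_symm_apply, Matrix.cons_val_zero]
  rw [Summable.tsum_prod (summable_prod N τ)]
  refine tsum_congr fun c => ?_
  exact tsum_mul_left (a := i1 N c) (f := fun d : ℤ => eisSummand 3 ![c, d] τ)

lemma summable_rows (N : ℕ) (τ : ℍ) : Summable fun c : ℤ => i1 N c * row τ c := by
  have h := (summable_prod N τ).prod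
  refine h.congr fun c => ?_
  exact tsum_mul_left (a := i1 N c) (f := fun d : ℤ => eisSummand 3 ![c, d] τ)

/-- the double series. -/
def dbl (N : ℕ) (r : ℂ) (x : ℕ+ × ℕ+) : ℂ := chi N x.1 * ((x.2 : ℂ) ^ 2 * r ^ (x.1 * x.2 : ℕ))

lemma summable_dbl (N : ℕ) {r : ℂ} (hr : ‖r‖ < 1) : Summable (dbl N r) := by
  have h := ((summable_prod_mul_pow (𝕜 := ℂ) 2 hr).norm).mul_left 2
  refine Summable.of_norm_bounded h fun x => ?_
  unfold dbl
  rw [norm_mul]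
  exact mul_le_mul_of_nonneg_right (norm_chi_le N _) (norm_nonneg _)

/-- Steps B–D. -/
lemma tsum_eq_dbl (N : ℕ) (τ : ℍ) :
    ∑' v : Fin 2 → ℤ, i1 N (v 0) * eisSummand 3 v τ = K * ∑' x : ℕ+ × ℕ+, dbl N (cexp (2 * π * Complex.I * τ)) x := by
  have hr := norm_exp_two_pi_I_lt_one τ
  rw [tsum_eq_rows, tsum_int_eq_zero_add_tsum_pnat (summable_rows N τ), row_zero, mul_zero, zero_add]
  have hs := summable_rows N τ
  have h1 : Summable fun n : ℕ+ => i1 N (n : ℤ) * row τ (n : ℤ) :=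
    hs.comp_injective (i := fun n : ℕ+ => ((n : ℕ) : ℤ))
      (fun a b h => by
        have : ((a : ℕ) : ℤ) = ((b : ℕ) : ℤ) := h
        exact_mod_cast this)
  have h2 : Summable fun n : ℕ+ => i1 N (-(n : ℤ)) * row τ (-(n : ℤ)) :=
    hs.comp_injective (i := fun n : ℕ+ => -((n : ℕ) : ℤ))
      (fun a b h => by
        have : ((a : ℕ) : ℤ) = ((b : ℕ) : ℤ) := neg_injective h
        exact_mod_cast this)
  rw [← h1.tsum_add h2, (summable_dbl N hr).tsum_prod, ← tsum_mul_left]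
  refine tsum_congr fun c => ?_
  rw [row_neg, row_pnat]
  simp only [dbl]
  rw [tsum_mul_left, chi]
  ring

/-- the coefficients. -/
def coef (N n : ℕ) : ℤ :=
  ∑ m ∈ n.divisors, ((if ((n / m : ℕ) : ZMod N) = 1 then (m : ℤ) ^ 2 else 0) -
    (if ((n / m : ℕ) : ZMod N) = -1 then (m : ℤ) ^ 2 else 0))

lemma chi_mul_sq (N c m : ℕ) :
    chi N c * (m : ℂ) ^ 2 = (((if (c : ZMod N) = 1 then (m : ℤ) ^ 2 else 0) -
      (if (c : ZMod N) = -1 then (m : ℤ) ^ 2 else 0) : ℤ) : ℂ) := by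
  unfold chi i1
  have e1 : (((c : ℤ) : ZMod N) = 1) ↔ ((c : ZMod N) = 1) := by simp
  have e2 : (((-(c : ℤ) : ℤ) : ZMod N) = 1) ↔ ((c : ZMod N) = -1) := by
    push_cast
    exact neg_eq_iff_eq_neg
  simp only [e1, e2]
  split_ifs <;> push_cast <;> ring

/-- Step E: regrouping. -/
lemma hasSum_regroup (N : ℕ) {r : ℂ} (hr : ‖r‖ < 1) :
    HasSum (fun n : ℕ => (coef N n : ℂ) * r ^ n) (∑' x : ℕ+ × ℕ+, dbl N r x) := by
  have h0 : HasSum (dbl N r) (∑' x : ℕ+ × ℕ+, dbl N r x) := (summable_dbl N hr).hasSum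
  have h1 := (sigmaAntidiagonalEquivProd.hasSum_iff).mpr h0
  have h2 : HasSum (fun n : ℕ+ => (coef N n : ℂ) * r ^ (n : ℕ)) (∑' x : ℕ+ × ℕ+, dbl N r x) := by
    refine HasSum.sigma h1 fun n => ?_
    have h3 := hasSum_fintype
      (fun x : Nat.divisorsAntidiagonal (n : ℕ) => (dbl N r ∘ sigmaAntidiagonalEquivProd) ⟨n, x⟩)
    convert h3 using 1
    rw [Finset.univ_eq_attach]
    have h4 : ∀ x : Nat.divisorsAntidiagonal (n : ℕ),
        (dbl N r ∘ sigmaAntidiagonalEquivProd) ⟨n, x⟩ =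
          (fun y : ℕ × ℕ => chi N y.1 * (y.2 : ℂ) ^ 2 * r ^ (n : ℕ)) x.1 := by
      intro x
      have hx := (Nat.mem_divisorsAntidiagonal.mp x.2).1
      simp only [Function.comp, dbl, sigmaAntidiagonalEquivProd, divisorsAntidiagonalFactors,
        Equiv.coe_fn_mk, PNat.mk_coe]
      rw [hx]
      ring
    rw [Finset.sum_congr rfl fun x _ => h4 x,
      (n : ℕ).divisorsAntidiagonal.sum_attach (fun y : ℕ × ℕ => chi N y.1 * (y.2 : ℂ) ^ 2 * r ^ (n : ℕ)),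
      Nat.sum_divisorsAntidiagonal' (fun a b => chi N a * (b : ℂ) ^ 2 * r ^ (n : ℕ)),
      ← Finset.sum_mul, coef]
    congr 1
    push_cast
    refine Finset.sum_congr rfl fun m _ => ?_
    rw [chi_mul_sq]
    push_cast
    rfl
  have h5 := (hasSum_pnat_iff (f := fun n : ℕ => (coef N n : ℂ) * r ^ n)).mp h2
  simpa [coef] using h5

/-- **The `q`-expansion.** -/
theorem hasSum_core (N : ℕ) (τ : ℍ) :
    HasSum (fun n : ℕ => (K * (coef N n : ℂ)) • 𝕢 1 (τ : ℂ) ^ n)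
      (∑' v : Fin 2 → ℤ, i1 N (v 0) * eisSummand 3 v τ) := by
  have hq : 𝕢 1 (τ : ℂ) = cexp (2 * π * Complex.I * τ) := by
    simp [Function.Periodic.qParam]
  rw [tsum_eq_dbl, hq]
  have h := (hasSum_regroup N (norm_exp_two_pi_I_lt_one τ)).mul_left K
  have e : (fun n : ℕ => (K * (coef N n : ℂ)) • cexp (2 * π * Complex.I * τ) ^ n) =
      fun i : ℕ => K * ((coef N i : ℂ) * cexp (2 * π * Complex.I * τ) ^ i) := by
    funext n
    rw [smul_eq_mul]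
    ring
  rw [e]
  exact h

end

end Fermat.Agent.S48.W2x.QCore
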