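import Fermat.Agent.S48.W2x.Prim
import Fermat.Agent.S48.W2x.QCore

/-!
# S48 / W2x : the `q`-expansion of `H`      (TASK `S48/W2-QExp`)

`H(τ) = ∑_{v₀ ≡ 1 (N)} (v₀ τ + v₁)⁻³ = K₃ ∑_{n ≥ 1} a_N(n) qⁿ`.

PROOF.  The family `v ↦ cN N v * eisSummand 3 v τ` is (absolutely) summable (`summable_term`).
Reindex by `finTwoArrowEquiv : (Fin 2 → ℤ) ≃ ℤ × ℤ` and sum first over `d = v 1`
(`Summable.tsum_prod` / `HasSum.prod_fiberwise`):  `H τ = ∑_{c ∈ ℤ} ind N c * S(c)`,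
`S(c) = ∑_{d ∈ ℤ} (c τ + d)⁻³`.
* `S(0) = ∑_d d⁻³ = 0` (odd function: `d ↦ -d`), `S(-c) = - S(c)` (`(-cτ+d)⁻³ = -(cτ-d)⁻³`, `d ↦ -d`).
* for `c ≥ 1`: `c • τ ∈ ℍ` and Mathlib's Lipschitz formula
  `EisensteinSeries.qExpansion_identity (k := 2)` (or `qExpansion_identity_pnat`) gives
  `S(c) = K₃ ∑_{m ≥ 1} m² q^{c m}`.
So (split `ℤ` into `c > 0`, `c = 0`, `c < 0`: `tsum_of_nat_of_neg_add_one`, `HasSum.int_rec`, or
`tsum_int_eq_zero_add_tsum_pnat`-type lemmas; see how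
`Mathlib/NumberTheory/ModularForms/EisensteinSeries/QExpansion.lean` proves
`EisensteinSeries.tsum_eisSummand_eq_...`)
`H τ = K₃ ∑_{c ≥ 1} (ind N c - ind N (-c)) ∑_{m ≥ 1} m² q^{c m}`, and the double series over
`ℕ+ × ℕ+` is absolutely summable (`EisensteinSeries.summable_prod_mul_pow`); regroup by `n = c m`
with `sigmaAntidiagonalEquivProd` as in `tsum_prod_pow_eq_tsum_sigma`.
The term `n = 0` of the final series is `0` (`aN N 0 = 0`, empty sum).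
-/

set_option autoImplicit false

namespace Fermat.Agent.S48.W2x

open Fermat.Agent.S23
open UpperHalfPlane ModularForm Filter Topology Matrix EisensteinSeries
open scoped MatrixGroups Manifold

local notation "𝕢" => Function.Periodic.qParam

theorem hasSum_Hfun (N : ℕ) (τ : ℍ) :
    HasSum (fun n : ℕ => (K3 * (aN N n : ℂ)) • 𝕢 1 (τ : ℂ) ^ n) (Hfun N τ) :=
  QCore.hasSum_core N τ

theorem qe_HForm_coeff (N : ℕ) [NeZero N] (n : ℕ) :
    (qe (HForm N)).coeff n = K3 * (aN N n : ℂ) :=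
  (ModularFormClass.qExpansion_coeff_unique (f := HForm N) (c := fun n => K3 * (aN N n : ℂ))
    one_pos (one_mem_strictPeriods_Gamma1 N) (hasSum_Hfun N) n).symm

/-- the normalised primitive element `K₃⁻¹ H`. -/
noncomputable def hPrim (N : ℕ) [NeZero N] : ModularForm (GG (CongruenceSubgroup.Gamma1 N)) 3 :=
  K3⁻¹ • HForm N

theorem coe_hPrim (N : ℕ) [NeZero N] : ⇑(hPrim N) = K3⁻¹ • Hfun N := rfl

theorem isInt_qe_hPrim (N : ℕ) [NeZero N] : IsInt (qe (hPrim N)) := by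
  intro n
  refine ⟨aN N n, ?_⟩
  have hMF : IsMF (GG (CongruenceSubgroup.Gamma1 N)) 3 (HForm N) := ⟨HForm N, rfl⟩
  have hN : Nice (⇑(HForm N)) := hMF.nice_of_strictPeriods (one_mem_strictPeriods_Gamma1 N)
  have h1 : qe (⇑(hPrim N)) = K3⁻¹ • qe (HForm N) := hN.qe_smul _
  rw [h1, PowerSeries.coeff_smul, qe_HForm_coeff, smul_eq_mul, ← mul_assoc,
    inv_mul_cancel₀ K3_ne_zero, one_mul]

end Fermat.Agent.S48.W2x
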