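import Fermat.Agent.S48.W2x.Prim

/-!
# S48 / W2x : regrouping the double series `∑_{c, m ≥ 1} χ(c) m² r^{c m}` by `n = c m`
-/

set_option autoImplicit false

namespace Fermat.Agent.S48.W2x

noncomputable section

/-- `χ(c) = [c ≡ 1 (N)] - [c ≡ -1 (N)]`. -/
def chiN (N : ℕ) (c : ℕ) : ℤ :=
  (if (c : ZMod N) = 1 then 1 else 0) - (if (c : ZMod N) = -1 then 1 else 0)

theorem norm_chiN_le (N c : ℕ) : ‖(chiN N c : ℂ)‖ ≤ 1 := by
  unfold chiN
  split_ifs <;> simp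

theorem aN_eq (N n : ℕ) : aN N n = ∑ x ∈ n.divisorsAntidiagonal, chiN N x.1 * (x.2 : ℤ) ^ 2 := by
  rw [Nat.sum_divisorsAntidiagonal' (fun a b => chiN N a * (b : ℤ) ^ 2), aN]
  refine Finset.sum_congr rfl fun m _ => ?_
  unfold chiN
  split_ifs <;> ring

/-- the general term. -/
def regTerm (N : ℕ) (r : ℂ) (c : ℕ+ × ℕ+) : ℂ :=
  (chiN N c.1 : ℂ) * (c.2 : ℂ) ^ 2 * r ^ (c.1 * c.2 : ℕ)

theorem summable_regTerm (N : ℕ) {r : ℂ} (hr : ‖r‖ < 1) : Summable (regTerm N r) := by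
  refine Summable.of_norm_bounded (summable_prod_mul_pow (𝕜 := ℂ) 2 hr).norm fun c => ?_
  unfold regTerm
  rw [mul_assoc, norm_mul]
  exact mul_le_of_le_one_left (norm_nonneg _) (norm_chiN_le N _)

theorem hasSum_regroup (N : ℕ) {r : ℂ} (hr : ‖r‖ < 1) :
    HasSum (fun n : ℕ => (aN N n : ℂ) * r ^ n)
      (∑' c : ℕ+, ∑' m : ℕ+, (chiN N c : ℂ) * (m : ℂ) ^ 2 * r ^ (c * m : ℕ)) := by
  have hs := summable_regTerm N hr
  have h1 : ∑' c : ℕ+, ∑' m : ℕ+, (chiN N c : ℂ) * (m : ℂ) ^ 2 * r ^ (c * m : ℕ)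
      = ∑' p : ℕ+ × ℕ+, regTerm N r p := (hs.tsum_prod).symm
  rw [h1]
  have h2 : HasSum (regTerm N r ∘ sigmaAntidiagonalEquivProd) (∑' p : ℕ+ × ℕ+, regTerm N r p) :=
    (sigmaAntidiagonalEquivProd.hasSum_iff).mpr hs.hasSum
  have h3 : ∀ n : ℕ+, HasSum (fun x : Nat.divisorsAntidiagonal n =>
      (regTerm N r ∘ sigmaAntidiagonalEquivProd) ⟨n, x⟩) ((aN N n : ℂ) * r ^ (n : ℕ)) := by
    intro n
    have h4 := hasSum_fintype (fun x : Nat.divisorsAntidiagonal n =>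
      (regTerm N r ∘ sigmaAntidiagonalEquivProd) ⟨n, x⟩)
    convert h4 using 1
    rw [aN_eq, Finset.univ_eq_attach]
    push_cast
    rw [Finset.sum_mul, ← Finset.sum_attach]
    refine Finset.sum_congr rfl fun x _ => ?_
    have hx := (Nat.mem_divisorsAntidiagonal.mp x.2).1
    simp only [Function.comp, regTerm, sigmaAntidiagonalEquivProd, divisorsAntidiagonalFactors,
      Equiv.coe_fn_mk, PNat.mk_coe]
    rw [hx]
  have h5 : HasSum (fun n : ℕ+ => (aN N n : ℂ) * r ^ (n : ℕ)) (∑' p : ℕ+ × ℕ+, regTerm N r p) :=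
    h2.sigma h3
  rw [← PNat.coe_injective.hasSum_iff]
  · exact h5
  · intro n hn
    have : n = 0 := by
      by_contra h0
      exact hn ⟨⟨n, Nat.pos_of_ne_zero h0⟩, rfl⟩
    subst this
    simp [aN]

end

end Fermat.Agent.S48.W2x
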