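import Fermat.Agent.S48.W2x.Lim
import Fermat.Agent.S48.W2x.Lam
import Fermat.Agent.S48.W2x.QExp
import Fermat.Agent.S23.PrimitiveElement

/-!
# S48 / W2x : the stabiliser of `H` is `Γ₁(N)`; existence of a primitive element
-/

set_option autoImplicit false

namespace Fermat.Agent.S48.W2x

open Fermat.Agent.S23
open UpperHalfPlane ModularForm Filter Topology Matrix EisensteinSeries
open scoped MatrixGroups Manifold

/-- `δ_t = (t, -1; 1, 0)`. -/
def delt (t : ℤ) : SL(2, ℤ) := ⟨!![t, -1; 1, 0], by simp [Matrix.det_fin_two_of]⟩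

theorem mul_delt_one_zero (γ : SL(2, ℤ)) (t : ℤ) : (γ * delt t) 1 0 = γ 1 0 * t + γ 1 1 := by
  simp [delt, Matrix.mul_apply, Fin.sum_univ_two]

theorem delt_one_zero (t : ℤ) : (delt t) 1 0 = 1 := by
  simp [delt]

theorem mem_Gamma1_of_slash_eq (N : ℕ) (hN : 3 ≤ N) (γ : SL(2, ℤ))
    (h : Hfun N ∣[(3 : ℤ)] γ = Hfun N) : γ ∈ CongruenceSubgroup.Gamma1 N := by
  have key : ∀ t : ℤ, ((γ 1 0 * t + γ 1 1 : ℤ) : ZMod N) = 1 := by
    intro t
    by_contra hne
    have h1 := tendsto_Hfun_slash N (γ * delt t)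
    have h2 := tendsto_Hfun_slash N (delt t)
    rw [SlashAction.slash_mul, h] at h1
    have h3 := tendsto_nhds_unique h1 h2
    rw [mul_delt_one_zero, delt_one_zero] at h3
    exact Lam_ne N hN _ hne h3
  have h11 : ((γ 1 1 : ℤ) : ZMod N) = 1 := by simpa using key 0
  have h10 : ((γ 1 0 : ℤ) : ZMod N) = 0 := by
    have := key 1
    push_cast at this
    rw [h11] at this
    simpa using this
  have h00 : ((γ 0 0 : ℤ) : ZMod N) = 1 := by
    have hdet := PrimEl.SL_det_eq γ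
    have := congrArg (fun z : ℤ => (z : ZMod N)) hdet
    push_cast at this
    rw [h11, h10] at this
    simpa using this
  rw [CongruenceSubgroup.Gamma1_mem]
  exact ⟨h00, h11, h10⟩

theorem mem_Gamma1_of_hPrim_slash_eq (N : ℕ) [NeZero N] (hN : 3 ≤ N) (γ : SL(2, ℤ))
    (h : ⇑(hPrim N) ∣[(3 : ℤ)] γ = ⇑(hPrim N)) : γ ∈ CongruenceSubgroup.Gamma1 N := by
  apply mem_Gamma1_of_slash_eq N hN
  rw [coe_hPrim, ModularForm.SL_smul_slash] at h
  have := congrArg (fun F => K3 • F) h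
  simpa [smul_smul, K3_ne_zero] using this

/-- For `N ≤ 2`, `Γ₁(N) = Γ₀(N)`.      (TASK `S48/W2-Small`)
`Gamma1_mem`, `Gamma0_mem`; `N = 1`: `ZMod 1` is trivial; `N = 2`: from `a d - b c = 1` and `c ≡ 0`
one gets `a d ≡ 1 mod 2`, so `a ≡ d ≡ 1` (`decide` over `ZMod 2`). -/
theorem Gamma1_eq_Gamma0_of_le_two (N : ℕ) (hN : N ≤ 2) (hN0 : N ≠ 0) :
    CongruenceSubgroup.Gamma1 N = CongruenceSubgroup.Gamma0 N := by
  ext γ
  rw [CongruenceSubgroup.Gamma1_mem, CongruenceSubgroup.Gamma0_mem]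
  refine ⟨fun h => h.2.2, fun h => ?_⟩
  have hN' : N = 1 ∨ N = 2 := by omega
  rcases hN' with rfl | rfl
  · exact ⟨Subsingleton.elim _ _, Subsingleton.elim _ _, h⟩
  · have hdet : γ 0 0 * γ 1 1 - γ 0 1 * γ 1 0 = 1 := by
      have := γ.det_coe
      rw [Matrix.det_fin_two] at this
      exact this
    have h2 := congrArg (fun z : ℤ => (z : ZMod 2)) hdet
    push_cast at h2
    rw [h, mul_zero, sub_zero] at h2
    have key : ∀ a d : ZMod 2, a * d = 1 → a = 1 ∧ d = 1 := by decide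
    exact ⟨(key _ _ h2).1, (key _ _ h2).2, h⟩

/-- **Existence of a primitive element for `Γ₁(N)`.** -/
theorem exists_primitive (N : ℕ) [NeZero N] :
    ∃ (l : ℤ) (h : ModularForm (GG (CongruenceSubgroup.Gamma1 N)) l), BD (qe h) ∧
      ∀ γ : SL(2, ℤ), (⇑h ∣[l] γ = ⇑h) → γ ∈ CongruenceSubgroup.Gamma1 N := by
  by_cases hN : 3 ≤ N
  · exact ⟨3, hPrim N, (isInt_qe_hPrim N).BD, mem_Gamma1_of_hPrim_slash_eq N hN⟩
  · rw [Gamma1_eq_Gamma0_of_le_two N (by omega) (NeZero.ne N)]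
    obtain ⟨h, hBD, hstab⟩ := exists_h N
    exact ⟨_, h, hBD, hstab⟩

end Fermat.Agent.S48.W2x
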